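import Fermat.Agent.S17.H500.Package
import Mathlib.Tactic.Linarith
import Mathlib.Tactic.Ring
import Mathlib.Tactic.Positivity

/-!
# S17 / tower H — formal leaf F-WD (helper999)

`wd : P.InvStatement → ∃ q, P.WDStatement q` for an arbitrary pairing package `P`.

`q x := -B(D_x, D'_x) / 2` for representatives chosen by `mov1`; two pairs `(D, D')`, `(E, E')` of
disjoint good representatives of degree `d` of the same class are connected through generic
representatives `G`, `G'`:
`B(D, D') ~ B(D, G') ~ B(G, G') ~ B(G, E') ~ B(E, E')` (four applications of `InvStatement`,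
using the symmetry of `B`).
-/

set_option autoImplicit false

namespace Fermat.Agent.S17.H999

open Fermat.Agent.S17.H500

variable {A : Type} [AddCommGroup A] (P : PairingPackage A)

/-- `B` is symmetric. -/
theorem B_symm (D E : P.Dv) : P.B D E = P.B E D := by
  unfold PairingPackage.B
  rw [P.pr_symm D E]
  ring

/-- disjointness from a sum, in the second variable -/
theorem disj_add_right {D E₁ E₂ : P.Dv} (h : P.Disj D (E₁ + E₂)) : P.Disj D E₁ ∧ P.Disj D E₂ := by
  have h1 := (P.disj_add_left E₁ E₂ D).mp (P.disj_symm _ _ h)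
  exact ⟨P.disj_symm _ _ h1.1, P.disj_symm _ _ h1.2⟩

/-- `d + 2 g ≤ m` -/
theorem d_add_le : P.d + 2 * P.g ≤ P.m := by
  have := P.four_d_le_m
  omega

/-- **F-WD.** -/
theorem wd (hInv : P.InvStatement) : ∃ q : A → ℝ, P.WDStatement q := by
  classical
  obtain ⟨C, hC⟩ := hInv
  -- chosen representatives
  have h1 : ∀ x : A, ∃ D, P.deg D = P.d ∧ P.cls D = x ∧ P.Disj D 0 ∧ P.Good D :=
    fun x => P.mov1 x 0
  choose D₀ hD₀deg hD₀cls _ hD₀good using h1
  have h2 : ∀ x : A, ∃ D, P.deg D = P.d ∧ P.cls D = x ∧ P.Disj D (D₀ x) ∧ P.Good D :=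
    fun x => P.mov1 x (D₀ x)
  choose D₁ hD₁deg hD₁cls hD₁disj hD₁good using h2
  -- the key comparison
  have key : ∀ (x : A) (D D' E E' : P.Dv), P.deg D = P.d → P.deg D' = P.d → P.cls D = x →
      P.cls D' = x → P.Disj D D' → P.deg E = P.d → P.deg E' = P.d → P.cls E = x →
      P.cls E' = x → P.Disj E E' → |P.B D D' - P.B E E'| ≤ 4 * (C * (P.d + 1)) := by
    intro x D D' E E' hD hD' hcD hcD' hDD' hE hE' hcE hcE' hEE'
    obtain ⟨G, hG, hcG, hGT, -⟩ := P.mov1 x (D + D' + E + E')
    obtain ⟨G', hG', hcG', hG'T, -⟩ := P.mov1 x (D + D' + E + E' + G)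
    -- disjointness bookkeeping
    obtain ⟨hG3, hGE'⟩ := disj_add_right P hGT
    obtain ⟨hG2, hGE⟩ := disj_add_right P hG3
    obtain ⟨hGD, hGD'⟩ := disj_add_right P hG2
    obtain ⟨hG'4, hG'G⟩ := disj_add_right P hG'T
    obtain ⟨hG'3, hG'E'⟩ := disj_add_right P hG'4
    obtain ⟨hG'2, hG'E⟩ := disj_add_right P hG'3
    obtain ⟨hG'D, hG'D'⟩ := disj_add_right P hG'2
    have hdm := d_add_le P
    -- step 1: `B(D, D') ~ B(D, G')`
    have s1 : |P.B D D' - P.B D G'| ≤ C * (P.d + 1) := by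
      have := hC D' G' D (by rw [hD', hG']) (by rw [hD']; exact hdm) (by rw [hcD', hcG'])
        (P.disj_symm _ _ hDD') hG'D
      rw [B_symm P D' D, B_symm P G' D, hD] at this
      exact this
    -- step 2: `B(D, G') ~ B(G, G')`
    have s2 : |P.B D G' - P.B G G'| ≤ C * (P.d + 1) := by
      have := hC D G G' (by rw [hD, hG]) (by rw [hD]; exact hdm) (by rw [hcD, hcG])
        (P.disj_symm _ _ hG'D) (P.disj_symm _ _ hG'G)
      rw [hG'] at this
      exact this
    -- step 3: `B(G, G') ~ B(G, E')`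
    have s3 : |P.B G G' - P.B G E'| ≤ C * (P.d + 1) := by
      have := hC G' E' G (by rw [hG', hE']) (by rw [hG']; exact hdm) (by rw [hcG', hcE'])
        hG'G (P.disj_symm _ _ hGE')
      rw [B_symm P G' G, B_symm P E' G, hG] at this
      exact this
    -- step 4: `B(G, E') ~ B(E, E')`
    have s4 : |P.B G E' - P.B E E'| ≤ C * (P.d + 1) := by
      have := hC G E E' (by rw [hG, hE]) (by rw [hG]; exact hdm) (by rw [hcG, hcE])
        hGE' hEE'
      rw [hE'] at this
      exact this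
    have e : P.B D D' - P.B E E' = (P.B D D' - P.B D G') + (P.B D G' - P.B G G') +
        (P.B G G' - P.B G E') + (P.B G E' - P.B E E') := by ring
    rw [e]
    calc |(P.B D D' - P.B D G') + (P.B D G' - P.B G G') + (P.B G G' - P.B G E') +
          (P.B G E' - P.B E E')|
        ≤ |P.B D D' - P.B D G'| + |P.B D G' - P.B G G'| + |P.B G G' - P.B G E'| +
          |P.B G E' - P.B E E'| := by
          refine (abs_add_le _ _).trans ?_
          refine add_le_add ((abs_add_le _ _).trans ?_) le_rfl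
          exact add_le_add (abs_add_le _ _) le_rfl
      _ ≤ 4 * (C * (P.d + 1)) := by linarith
  refine ⟨fun x => -(P.B (D₁ x) (D₀ x)) / 2, 2 * (C * (P.d + 1)), ?_⟩
  intro x D D' hD hD' hcD hcD' _ _ hDD'
  have := key x D D' (D₁ x) (D₀ x) hD hD' hcD hcD' hDD' (hD₁deg x) (hD₀deg x) (hD₁cls x)
    (hD₀cls x) (hD₁disj x)
  have e : -(P.B (D₁ x) (D₀ x)) / 2 + P.B D D' / 2 = (P.B D D' - P.B (D₁ x) (D₀ x)) / 2 := by
    ring
  show |-(P.B (D₁ x) (D₀ x)) / 2 + P.B D D' / 2| ≤ 2 * (C * (P.d + 1))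
  rw [e, abs_div, abs_two]
  linarith

end Fermat.Agent.S17.H999
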